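import Fermat.Agent.S16.E2b.Defs

/-!
# S16 / E2b / Arith: the coefficients of the formal series `Bstar N`  (one worker)

FROZEN statements; replace each `sorry`; helper lemmas in the sub-namespace `ArithAux`.
`sigmaNat N k = ∑ d ∈ k.divisors with ¬ N ∣ d, d` (`MF/Exp.lean`), `B2 = mk (if m = 0 then 1 else
-24 σ₁(m))`, `Bstar N hN = (N - 1)⁻¹ • (N • expand N hN B2 - B2)` (`E2b/Defs.lean`).

* `sigma_eq`: split `k.divisors` according to `N ∣ d` (`Finset.sum_filter_add_sum_filter_not`);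
  the divisors `d` of `k` with `N ∣ d` are exactly `N d'`, `d' ∣ k / N` (empty if `N ∤ k`);
  `ArithmeticFunction.sigma_one_apply`: `σ 1 k = ∑ d ∈ k.divisors, d`.
* `coeff_Bstar_zero`, `coeff_Bstar`: `PowerSeries.coeff_smul`, `map_sub`, `PowerSeries.coeff_expand`
  (`= if N ∣ k then coeff (k / N) B2 else 0`), `PowerSeries.coeff_mk`; for `k ≥ 1` and `N ∣ k`,
  `k / N ≥ 1`; `(N : ℂ) - 1 ≠ 0` as `2 ≤ N`; then `sigma_eq` cast to `ℂ`.
-/

set_option autoImplicit false

open UpperHalfPlane ModularForm CongruenceSubgroup Complex Function EisensteinSeries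
open scoped MatrixGroups ModularForm Real Manifold

namespace Fermat.Agent.S16.E2b

namespace ArithAux

/-- The divisors of `N * m` that are multiples of `N` are the `N * d`, `d ∣ m`. -/
theorem filter_dvd_divisors (N m : ℕ) (hN : 0 < N) (hm : 0 < m) :
    (N * m).divisors.filter (fun d => N ∣ d) = m.divisors.image (fun d => N * d) := by
  ext d
  simp only [Finset.mem_filter, Nat.mem_divisors, Finset.mem_image]
  constructor
  · rintro ⟨⟨hd, -⟩, ⟨e, rfl⟩⟩
    exact ⟨e, ⟨(Nat.mul_dvd_mul_iff_left hN).mp hd, hm.ne'⟩, rfl⟩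
  · rintro ⟨e, ⟨he, -⟩, rfl⟩
    exact ⟨⟨Nat.mul_dvd_mul_left N he, (Nat.mul_pos hN hm).ne'⟩, Dvd.intro e rfl⟩

/-- The sum of the divisors of `k` that are multiples of `N`. -/
theorem sum_filter_dvd (N k : ℕ) (hN : 0 < N) (hk : 1 ≤ k) :
    ∑ d ∈ k.divisors.filter (fun d => N ∣ d), d =
      N * (if N ∣ k then ArithmeticFunction.sigma 1 (k / N) else 0) := by
  by_cases h : N ∣ k
  · obtain ⟨m, rfl⟩ := h
    have hm : 0 < m := by
      rcases Nat.eq_zero_or_pos m with h0 | h0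
      · rw [h0, Nat.mul_zero] at hk
        omega
      · exact h0
    rw [if_pos (Dvd.intro m rfl), Nat.mul_div_cancel_left m hN, filter_dvd_divisors N m hN hm,
      Finset.sum_image (fun a _ b _ hab => Nat.eq_of_mul_eq_mul_left hN hab),
      ArithmeticFunction.sigma_one_apply, Finset.mul_sum]
  · rw [if_neg h, Nat.mul_zero]
    apply Finset.sum_eq_zero
    intro d hd
    rw [Finset.mem_filter, Nat.mem_divisors] at hd
    exact absurd (hd.2.trans hd.1.1) h

theorem sigma_eq_nat (N k : ℕ) (hN : 0 < N) (hk : 1 ≤ k) :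
    ArithmeticFunction.sigma 1 k =
      sigmaNat N k + N * (if N ∣ k then ArithmeticFunction.sigma 1 (k / N) else 0) := by
  rw [ArithmeticFunction.sigma_one_apply, sigmaNat_def, ← sum_filter_dvd N k hN hk, add_comm]
  exact (Finset.sum_filter_add_sum_filter_not k.divisors (fun d => N ∣ d) (fun d => d)).symm

theorem coeff_B2_zero : PowerSeries.coeff 0 B2 = 1 := by
  unfold B2
  rw [PowerSeries.coeff_mk, if_pos rfl]

theorem coeff_B2 (m : ℕ) (hm : 1 ≤ m) :
    PowerSeries.coeff m B2 = -24 * (ArithmeticFunction.sigma 1 m : ℂ) := by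
  unfold B2
  rw [PowerSeries.coeff_mk, if_neg (by omega)]

theorem coeff_Bstar_eq {N : ℕ} (hN0 : N ≠ 0) (k : ℕ) :
    PowerSeries.coeff k (Bstar N hN0) =
      ((N : ℂ) - 1)⁻¹ * ((N : ℂ) * (if N ∣ k then PowerSeries.coeff (k / N) B2 else 0) -
        PowerSeries.coeff k B2) := by
  unfold Bstar
  rw [PowerSeries.coeff_smul, map_sub, PowerSeries.coeff_smul, PowerSeries.coeff_expand,
    smul_eq_mul, smul_eq_mul]

theorem sub_one_ne_zero {N : ℕ} (hN : 2 ≤ N) : (N : ℂ) - 1 ≠ 0 := by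
  have h : ((N - 1 : ℕ) : ℂ) ≠ 0 := Nat.cast_ne_zero.mpr (by omega)
  rwa [Nat.cast_sub (by omega), Nat.cast_one] at h

end ArithAux

theorem sigma_eq (N k : ℕ) (hN : 0 < N) (hk : 1 ≤ k) :
    (ArithmeticFunction.sigma 1 k : ℤ) =
      (sigmaNat N k : ℤ) + N * (if N ∣ k then (ArithmeticFunction.sigma 1 (k / N) : ℤ) else 0) := by
  have h := ArithAux.sigma_eq_nat N k hN hk
  by_cases hd : N ∣ k
  · rw [if_pos hd] at h ⊢
    rw [h]
    push_cast
    ring
  · rw [if_neg hd] at h ⊢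
    rw [h]
    push_cast
    ring

theorem coeff_Bstar_zero {N : ℕ} (hN : 2 ≤ N) (hN0 : N ≠ 0) :
    PowerSeries.coeff 0 (Bstar N hN0) = 1 := by
  have hne := ArithAux.sub_one_ne_zero hN
  rw [ArithAux.coeff_Bstar_eq hN0 0, if_pos (dvd_zero N), Nat.zero_div, ArithAux.coeff_B2_zero,
    mul_one]
  exact inv_mul_cancel₀ hne

theorem coeff_Bstar {N : ℕ} (hN : 2 ≤ N) (hN0 : N ≠ 0) (k : ℕ) (hk : 1 ≤ k) :
    ((N : ℂ) - 1) * PowerSeries.coeff k (Bstar N hN0) = 24 * (sigmaNat N k : ℂ) := by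
  have hne := ArithAux.sub_one_ne_zero hN
  have hs := ArithAux.sigma_eq_nat N k (by omega) hk
  rw [ArithAux.coeff_Bstar_eq hN0 k, ← mul_assoc, mul_inv_cancel₀ hne, one_mul,
    ArithAux.coeff_B2 k hk, hs]
  by_cases hd : N ∣ k
  · have hkN : 1 ≤ k / N := by
      obtain ⟨m, rfl⟩ := hd
      rw [Nat.mul_div_cancel_left m (by omega)]
      rcases Nat.eq_zero_or_pos m with h0 | h0
      · rw [h0, Nat.mul_zero] at hk
        omega
      · exact h0
    rw [if_pos hd, if_pos hd, ArithAux.coeff_B2 _ hkN]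
    push_cast
    ring
  · rw [if_neg hd, if_neg hd]
    push_cast
    ring

end Fermat.Agent.S16.E2b
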