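import Fermat.Agent.S16.E2b.Defs

/-!
# S16 / E2b / Decomp: `γ = γ₀ S T^j` for `γ ∈ SL(2, ℤ)` with `N ∤ c(γ)`  (one worker)

FROZEN statement; replace the `sorry`; helper lemmas in the sub-namespace `DecompAux`.
Do NOT use the (still sorried) stubs of `Fermat/Agent/S16/COS/Iface.lean`.

`γ = [a, b; c, d]`, `N` prime, `N ∤ c`: choose `j : ℤ` with `N ∣ d - c j` (`c` is invertible mod
`N`: `Int.isCoprime_iff_gcd_eq_one`, Bézout `u c + v N = 1`, `j := u d`).  Put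
`γ₀ := γ * T^(-j) * S⁻¹`; then `γ = γ₀ * S * T^j` (group identity) and, since
`γ * T^(-j) = [a, b - a j; c, d - c j]` (`ModularGroup.coe_T_zpow`) and `S⁻¹ = [0, 1; -1, 0]`,
`γ₀ 1 0 = -(d - c j)`, divisible by `N`.
-/

set_option autoImplicit false

open UpperHalfPlane ModularForm CongruenceSubgroup Complex Function EisensteinSeries
open scoped MatrixGroups ModularForm Real Manifold

namespace Fermat.Agent.S16.E2b

namespace DecompAux

theorem entry_10 (γ : SL(2, ℤ)) (j : ℤ) :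
    (γ * ModularGroup.T ^ (-j) * ModularGroup.S⁻¹) 1 0 = -(γ 1 1 - γ 1 0 * j) := by
  have h1 : (γ * ModularGroup.T ^ (-j) * ModularGroup.S⁻¹ : SL(2, ℤ)).1 =
      γ.1 * (ModularGroup.T ^ (-j) : SL(2, ℤ)).1 * (ModularGroup.S⁻¹ : SL(2, ℤ)).1 := by
    rw [Matrix.SpecialLinearGroup.coe_mul, Matrix.SpecialLinearGroup.coe_mul]
  show (γ * ModularGroup.T ^ (-j) * ModularGroup.S⁻¹ : SL(2, ℤ)).1 1 0 = _
  rw [h1, ModularGroup.coe_T_zpow, Matrix.SpecialLinearGroup.coe_inv, ModularGroup.coe_S]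
  simp [Matrix.mul_apply, Fin.sum_univ_two, Matrix.adjugate_fin_two]
  ring

end DecompAux

theorem exists_decomp {N : ℕ} (hN : N.Prime) (γ : SL(2, ℤ)) (h : ¬ (N : ℤ) ∣ γ 1 0) :
    ∃ γ₀ : SL(2, ℤ), (N : ℤ) ∣ γ₀ 1 0 ∧ ∃ j : ℤ, γ = γ₀ * ModularGroup.S * ModularGroup.T ^ j := by
  have hp : Prime (N : ℤ) := Nat.prime_iff_prime_int.mp hN
  have hcop : IsCoprime (N : ℤ) (γ 1 0) := (Prime.coprime_iff_not_dvd hp).mpr h
  obtain ⟨v, u, huv⟩ := hcop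
  refine ⟨γ * ModularGroup.T ^ (-(u * γ 1 1)) * ModularGroup.S⁻¹, ?_, u * γ 1 1, ?_⟩
  · rw [DecompAux.entry_10]
    refine ⟨-(γ 1 1 * v), ?_⟩
    linear_combination (γ 1 1) * huv
  · rw [inv_mul_cancel_right, zpow_neg, inv_mul_cancel_right]

end Fermat.Agent.S16.E2b
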