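import Fermat.Agent.S16.E2b.Defs

/-!
# S16 / E2b / SlashDvd: `estar N` is invariant under `Γ₀(N)`  (one worker)

FROZEN statement; replace the `sorry`; helper lemmas in the sub-namespace `SlashDvdAux`.
Do NOT use the (still sorried) stubs of `Fermat/Agent/S16/VP/Iface.lean`; prove the matrix identity
directly.

Let `γ = [a, b; c, d] ∈ SL(2, ℤ)` with `N ∣ c`, `γ' := [a, N b; c / N, d] ∈ SL(2, ℤ)`
(`det = a d - N b (c / N) = 1`).  For `z ∈ ℍ`, `w := N z` (the point of `ℍ` with coercion `N * z`):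
`N * (γ • z) = γ' • w` (`UpperHalfPlane.coe_specialLinearGroup_apply` / `specialLinearGroup_apply`:
`(γ • z : ℂ) = (a z + b) / (c z + d)`) and `denom γ' w = (c / N) (N z) + d = denom γ z`
(`ModularGroup.denom_apply`).  Hence, with `ModularForm.SL_slash_apply`
(`(f ∣[k] γ) z = f (γ • z) * denom γ z ^ (-k)`):
`(EN N ∣[2] γ) z = (E2 ∣[2] γ') w`.  Mathlib `E2_slash_action γ : E2 ∣[2] γ = E2 - κ • D2 γ`,
`κ = 1 / (2 * riemannZeta 2)`, `D2 γ z = 2 π I (γ 1 0) / denom γ z`, gives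
`(EN N ∣[2] γ) z = EN N z - κ * (2 π I (c / N) / denom γ z)` and
`(E2 ∣[2] γ) z = E2 z - κ * (2 π I c / denom γ z)`; so
`N * (EN N ∣[2] γ) z - (E2 ∣[2] γ) z = N * EN N z - E2 z` (`N * (c / N) = c`), and the slash action is
linear (`SlashAction.add_slash`, `ModularForm.SL_smul_slash`, or work pointwise with
`SL_slash_apply`).
-/

set_option autoImplicit false

open UpperHalfPlane ModularForm CongruenceSubgroup Complex Function EisensteinSeries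
open scoped MatrixGroups ModularForm Real Manifold

namespace Fermat.Agent.S16.E2b

namespace SlashDvdAux

/-- The point `N z` of the upper half plane. -/
theorem exists_mul_point {N : ℕ} (hN : 0 < N) (z : ℍ) : ∃ w : ℍ, (w : ℂ) = (N : ℂ) * (z : ℂ) := by
  have him : 0 < ((N : ℂ) * (z : ℂ)).im := by
    have h1 : ((N : ℂ) * (z : ℂ)).im = (N : ℝ) * z.im := by
      simp
    rw [h1]
    exact mul_pos (Nat.cast_pos.mpr hN) z.im_pos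
  exact ⟨UpperHalfPlane.mk _ him, rfl⟩

/-- The conjugated matrix `[a, N b; c / N, d]`. -/
theorem exists_conj {N : ℕ} (γ : SL(2, ℤ)) (c' : ℤ) (hc : γ 1 0 = (N : ℤ) * c') :
    ∃ γ' : SL(2, ℤ), γ' 0 0 = γ 0 0 ∧ γ' 0 1 = (N : ℤ) * γ 0 1 ∧ γ' 1 0 = c' ∧ γ' 1 1 = γ 1 1 := by
  have hdet : (!![γ 0 0, (N : ℤ) * γ 0 1; c', γ 1 1] : Matrix (Fin 2) (Fin 2) ℤ).det = 1 := by
    have h1 := γ.det_coe
    rw [Matrix.det_fin_two] at h1
    rw [Matrix.det_fin_two_of]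
    rw [hc] at h1
    linear_combination h1
  exact ⟨⟨_, hdet⟩, rfl, rfl, rfl, rfl⟩

theorem coe_smul_eq (γ : SL(2, ℤ)) (z : ℍ) :
    ((γ • z : ℍ) : ℂ) = (((γ 0 0 : ℤ) : ℂ) * z + ((γ 0 1 : ℤ) : ℂ)) /
      (((γ 1 0 : ℤ) : ℂ) * z + ((γ 1 1 : ℤ) : ℂ)) := by
  rw [UpperHalfPlane.coe_specialLinearGroup_apply]
  simp

theorem denom_eq (γ : SL(2, ℤ)) (z : ℍ) :
    denom γ z = ((γ 1 0 : ℤ) : ℂ) * z + ((γ 1 1 : ℤ) : ℂ) := by
  rw [ModularGroup.denom_apply]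

theorem denom_eq_ne_zero (γ : SL(2, ℤ)) (z : ℍ) :
    ((γ 1 0 : ℤ) : ℂ) * z + ((γ 1 1 : ℤ) : ℂ) ≠ 0 := by
  rw [← denom_eq]
  exact denom_ne_zero γ z

end SlashDvdAux

theorem EN_slash_of_dvd {N : ℕ} (hN : 0 < N) (γ : SL(2, ℤ)) (hγ : (N : ℤ) ∣ γ 1 0) (z : ℍ) :
    (N : ℂ) * (EN N ∣[(2 : ℤ)] γ) z =
      (N : ℂ) * EN N z - (1 / (2 * riemannZeta 2)) * D2 γ z := by
  obtain ⟨c', hc⟩ := hγ
  obtain ⟨γ', h00, h01, h10, h11⟩ := SlashDvdAux.exists_conj γ c' hc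
  obtain ⟨w, hw⟩ := SlashDvdAux.exists_mul_point hN z
  have hNC : (N : ℂ) ≠ 0 := Nat.cast_ne_zero.mpr hN.ne'
  have hcC : ((γ 1 0 : ℤ) : ℂ) = (N : ℂ) * ((c' : ℤ) : ℂ) := by
    rw [hc]; push_cast; ring
  -- the two denominators agree
  have hden : denom γ' w = denom γ z := by
    rw [SlashDvdAux.denom_eq, SlashDvdAux.denom_eq, h10, h11, hw, hcC]
    ring
  have hdz : ((γ 1 0 : ℤ) : ℂ) * z + ((γ 1 1 : ℤ) : ℂ) ≠ 0 := SlashDvdAux.denom_eq_ne_zero γ z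
  -- `N * (γ • z) = γ' • w`
  have hpt : ((γ' • w : ℍ) : ℂ) = (N : ℂ) * ((γ • z : ℍ) : ℂ) := by
    rw [SlashDvdAux.coe_smul_eq, SlashDvdAux.coe_smul_eq, h00, h01, h10, h11, hw]
    have e : ((c' : ℤ) : ℂ) * ((N : ℂ) * (z : ℂ)) + ((γ 1 1 : ℤ) : ℂ) =
        ((γ 1 0 : ℤ) : ℂ) * z + ((γ 1 1 : ℤ) : ℂ) := by
      rw [hcC]; ring
    rw [e]
    push_cast
    field_simp
  have h1 : (EN N ∣[(2 : ℤ)] γ) z = (E2 ∣[(2 : ℤ)] γ') w := by
    rw [SL_slash_apply, SL_slash_apply, EN_apply (γ • z) (γ' • w) hpt, hden]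
  have h2 : (E2 ∣[(2 : ℤ)] γ') w = E2 w - (1 / (2 * riemannZeta 2)) * D2 γ' w := by
    rw [E2_slash_action]
    rfl
  have h3 : (N : ℂ) * D2 γ' w = D2 γ z := by
    unfold D2
    rw [hden, h10, hcC]
    ring
  rw [h1, h2, ← EN_apply z w hw, mul_sub, ← h3]
  ring

theorem estar_slash_of_dvd {N : ℕ} (hN : 0 < N) (γ : SL(2, ℤ)) (hγ : (N : ℤ) ∣ γ 1 0) :
    estar N ∣[(2 : ℤ)] γ = estar N := by
  ext z
  have hE := EN_slash_of_dvd hN γ hγ z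
  have hE2 : (E2 ∣[(2 : ℤ)] γ) z = E2 z - (1 / (2 * riemannZeta 2)) * D2 γ z := by
    rw [E2_slash_action]
    rfl
  rw [SL_slash_apply] at hE hE2 ⊢
  rw [estar_apply, estar_apply]
  have e : ((N : ℂ) * EN N (γ • z) - E2 (γ • z)) / ((N : ℂ) - 1) * denom γ z ^ (-(2 : ℤ)) =
      ((N : ℂ) * (EN N (γ • z) * denom γ z ^ (-(2 : ℤ))) - E2 (γ • z) * denom γ z ^ (-(2 : ℤ))) /
        ((N : ℂ) - 1) := by
    ring
  rw [e, hE, hE2]
  congr 1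
  ring

end Fermat.Agent.S16.E2b
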