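import Fermat.Agent.S16.E2b.Defs

/-!
# S16 / E2b / SlashS: the translate `estar N ∣ S`  (one worker)

FROZEN statement; replace the `sorry`; helper lemmas in the sub-namespace `SlashSAux`.

`S • z = -1 / z` (`UpperHalfPlane.modular_S_smul`), `denom S z = z`
(`ModularGroup.denom_S`), so `(f ∣[2] S) z = f (S • z) * z ^ (-2)` (`ModularForm.SL_slash_apply`).
Mathlib: `E2_slash_action S : E2 ∣[2] S = E2 - κ • D2 S`, `κ = 1 / (2 * riemannZeta 2)`,
`D2_S z : D2 S z = 2 π I / z`; i.e. `E2 (S • u) = u² (E2 u - κ 2 π I / u)` for all `u ∈ ℍ`.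
With `w = z / N`: the point `N * (S • z) = -N / z = -1 / w` is `S • w`, so
`EN N (S • z) = E2 (S • w) = w² E2 w - κ 2 π I w`, and `E2 (S • z) = z² E2 z - κ 2 π I z`.  Hence
`N EN N (S • z) - E2 (S • z) = z² (E2 w / N - E2 z)` and
`(estar N ∣[2] S) z = (N⁻¹ E2 w - E2 z) / (N - 1)`.
-/

set_option autoImplicit false

open UpperHalfPlane ModularForm CongruenceSubgroup Complex Function EisensteinSeries
open scoped MatrixGroups ModularForm Real Manifold

namespace Fermat.Agent.S16.E2b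

namespace SlashSAux

/-- The transformation of `E₂` under `S`, solved for `E2 (S • u)`. -/
theorem E2_S (u : ℍ) :
    E2 (ModularGroup.S • u) =
      (u : ℂ) ^ 2 * E2 u - (1 / (2 * riemannZeta 2)) * (2 * π * Complex.I) * (u : ℂ) := by
  have h := congrFun (E2_slash_action ModularGroup.S) u
  rw [ModularForm.SL_slash_apply] at h
  simp only [Pi.sub_apply, Pi.smul_apply, smul_eq_mul, D2_S, ModularGroup.denom_S] at h
  have hu : (u : ℂ) ≠ 0 := UpperHalfPlane.ne_zero u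
  have h2 : E2 (ModularGroup.S • u) =
      (E2 (ModularGroup.S • u) * (u : ℂ) ^ (-(2 : ℤ))) * (u : ℂ) ^ 2 := by
    rw [zpow_neg, zpow_ofNat, mul_assoc, inv_mul_cancel₀ (pow_ne_zero 2 hu), mul_one]
  rw [h2, h]
  field_simp

end SlashSAux

theorem estar_slash_S {N : ℕ} (hN : 0 < N) (z w : ℍ) (hw : (w : ℂ) = (z : ℂ) / (N : ℂ)) :
    (estar N ∣[(2 : ℤ)] ModularGroup.S) z = ((N : ℂ)⁻¹ * E2 w - E2 z) / ((N : ℂ) - 1) := by
  have hN0 : (N : ℂ) ≠ 0 := Nat.cast_ne_zero.mpr hN.ne'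
  have hz : (z : ℂ) ≠ 0 := UpperHalfPlane.ne_zero z
  have hSw : ((ModularGroup.S • w : ℍ) : ℂ) = (N : ℂ) * ((ModularGroup.S • z : ℍ) : ℂ) := by
    rw [UpperHalfPlane.modular_S_smul, UpperHalfPlane.modular_S_smul]
    show (-(w : ℂ))⁻¹ = (N : ℂ) * (-(z : ℂ))⁻¹
    rw [hw]
    field_simp
  rw [ModularForm.SL_slash_apply, ModularGroup.denom_S, estar_apply,
    EN_apply (ModularGroup.S • z) (ModularGroup.S • w) hSw, SlashSAux.E2_S w, SlashSAux.E2_S z,
    hw, div_mul_eq_mul_div]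
  congr 1
  rw [zpow_neg, zpow_ofNat]
  field_simp
  ring

end Fermat.Agent.S16.E2b
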