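import Fermat.Agent.S16.E2b.Defs

/-!
# S16 / E2b / QExp: the `q`-expansions of `E₂`, `E₂(N z)` and `estar N`  (one worker)

FROZEN statements; replace each `sorry`; helper lemmas in the sub-namespace `QExpAux`.
`HasExp h G B` (shared calculus `Fermat/Agent/S16/MF/Exp.lean`, fully proved):
`∀ z : ℍ, HasSum (fun m => coeff m B * Periodic.qParam (h : ℝ) z ^ m) (G z)`.

* `hasExp_E2`: Mathlib `EisensteinSeries.hasSum_qExpansion_E2`
  (`HasSum (fun m => (if m = 0 then 1 else -24 * σ 1 m : ℂ) • 𝕢 z ^ m) (E2 z)`, there `𝕢 = qParam 1`;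
  here the period is `((1 : ℕ) : ℝ)`: `Nat.cast_one`; `PowerSeries.coeff_mk`, `smul_eq_mul`).
* `hasExp_EN`: `HasExp.comp_mul N hN hasExp_E2 (fun z w h => EN_apply z w h)`.
* `hasExp_estar`: `HasExp.smul`, `HasExp.sub` (and `HasExp.congr` for the pointwise rewriting
  `estar N z = (N - 1)⁻¹ * (N * EN N z - E2 z)`).
-/

set_option autoImplicit false

open UpperHalfPlane ModularForm CongruenceSubgroup Complex Function EisensteinSeries
open scoped MatrixGroups ModularForm Real Manifold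

namespace Fermat.Agent.S16.E2b

theorem hasExp_E2 : HasExp 1 E2 B2 := by
  intro z
  have h := hasSum_qExpansion_E2 (z := z)
  convert h using 2 with m
  rw [smul_eq_mul]
  congr 1
  · unfold B2
    rw [PowerSeries.coeff_mk]
  · congr 1
    rw [Periodic.qParam, Nat.cast_one, ofReal_one, div_one]

theorem hasExp_EN {N : ℕ} (hN : N ≠ 0) : HasExp 1 (EN N) (PowerSeries.expand N hN B2) :=
  HasExp.comp_mul N hN hasExp_E2 (fun z w h => EN_apply z w h)

theorem hasExp_estar {N : ℕ} (hN : N ≠ 0) : HasExp 1 (estar N) (Bstar N hN) := by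
  have h1 : HasExp 1 ((((N : ℂ) - 1)⁻¹) • ((N : ℂ) • EN N - E2)) (Bstar N hN) :=
    HasExp.smul _ (HasExp.sub (HasExp.smul (N : ℂ) (hasExp_EN hN)) hasExp_E2)
  refine h1.congr fun z => ?_
  rw [estar_apply, Pi.smul_apply, Pi.sub_apply, Pi.smul_apply, smul_eq_mul, smul_eq_mul,
    div_eq_inv_mul]

end Fermat.Agent.S16.E2b
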