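import Fermat.Agent.S16.E2b.Defs
import Fermat.Agent.S16.E2b.QExp
import Fermat.Agent.S16.E2b.SlashDvd
import Fermat.Agent.S16.E2b.Decomp
import Fermat.Agent.S16.E2b.SlashS
import Fermat.Agent.S16.E2b.Alt.Bdd

/-!
# S16 / E2b / Bdd: all `SL(2, ℤ)`-translates of `estar N` are bounded at `i∞`  (one worker)

FROZEN statement; replace the `sorry`; helper lemmas in the sub-namespace `BddAux`.  The imported
leaves `QExp`, `SlashDvd`, `Decomp`, `SlashS` may still be sorried: cite them by statement.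

* `estar N` is bounded at `i∞`: `hasExp_estar` +
  `UpperHalfPlane.isBoundedAtImInfty_of_hasSum_qExpansion` (Mathlib, `ModularForms/QExpansion.lean`;
  period `1`), or directly from `isBoundedAtImInfty_E2`.
* `N ∣ γ 1 0`: `estar_slash_of_dvd`.
* `N ∤ γ 1 0`: `exists_decomp`: `γ = γ₀ S T^j`, so
  `estar N ∣ γ = ((estar N ∣ γ₀) ∣ S) ∣ T^j = (estar N ∣ S) ∣ T^j` (`SlashAction.slash_mul`).
  By `estar_slash_S`, `(estar N ∣ S) z = (N⁻¹ E2 (z / N) - E2 z) / (N - 1)`, bounded at `i∞` because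
  `E2` is (`isBoundedAtImInfty_E2`, `UpperHalfPlane.isBoundedAtImInfty_iff`: `‖E2 z‖ ≤ M` for
  `A ≤ im z`; `im (z / N) = im z / N ≥ A` once `im z ≥ N A`).  Finally
  `(G ∣[2] T^j) z = G (T^j • z)` (`denom (T^j) z = 1`, `ModularGroup.coe_T_zpow_smul_eq`:
  `(T^j • z : ℂ) = z + j`, same imaginary part), so boundedness is preserved.
-/

set_option autoImplicit false

open UpperHalfPlane ModularForm CongruenceSubgroup Complex Function EisensteinSeries
open scoped MatrixGroups ModularForm Real Manifold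

namespace Fermat.Agent.S16.E2b

theorem estar_slash_bdd {N : ℕ} (hN : N.Prime) (γ : SL(2, ℤ)) :
    IsBoundedAtImInfty (estar N ∣[(2 : ℤ)] γ) :=
  Alt.estar_slash_bdd hN γ

end Fermat.Agent.S16.E2b
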