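import Fermat.Agent.S16.E2b.Defs

/-!
# S16 / E2b / Holo: `estar N` is holomorphic  (one worker)

FROZEN statements (proved below); helper lemmas in the sub-namespace `HoloAux`.
Mathlib: `EisensteinSeries.E2_mdifferentiable : MDiff E2`;
`UpperHalfPlane.mdifferentiable_iff : MDiff f ↔ DifferentiableOn ℂ (f ∘ ofComplex) {z | 0 < z.im}`.
`EN N ∘ ofComplex` agrees on the upper half plane with `(E2 ∘ ofComplex) ∘ (fun z => N * z)`
(`ofComplex_apply_of_im_pos`), which is differentiable there by the chain rule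
(`DifferentiableOn.comp`, the map `z ↦ N z` preserves `{z | 0 < z.im}` for `N > 0`); then
`estar N = (N • EN N - E2) / (N - 1)` (`DifferentiableOn.const_mul`, `.sub`, `.div_const`, or the
`MDifferentiable` algebra lemmas `MDifferentiable.mul`, `.sub`, `mdifferentiable_const`).
-/

set_option autoImplicit false

open UpperHalfPlane ModularForm CongruenceSubgroup Complex Function EisensteinSeries
open scoped MatrixGroups ModularForm Real Manifold

namespace Fermat.Agent.S16.E2b

namespace HoloAux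

/-- Multiplication by a positive natural number preserves the upper half plane. -/
theorem mapsTo_mul {N : ℕ} (hN : 0 < N) :
    Set.MapsTo (fun z : ℂ => (N : ℂ) * z) {z : ℂ | 0 < z.im} {z : ℂ | 0 < z.im} := by
  intro z hz
  have hz' : 0 < z.im := hz
  show 0 < ((N : ℂ) * z).im
  rw [Complex.mul_im, Complex.natCast_re, Complex.natCast_im, zero_mul, add_zero]
  exact mul_pos (Nat.cast_pos.mpr hN) hz'

end HoloAux

theorem EN_mdiff {N : ℕ} (hN : 0 < N) : MDiff (EN N) := by
  rw [UpperHalfPlane.mdifferentiable_iff]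
  have hE : DifferentiableOn ℂ (E2 ∘ ofComplex) {z : ℂ | 0 < z.im} :=
    UpperHalfPlane.mdifferentiable_iff.mp E2_mdifferentiable
  have hmul : DifferentiableOn ℂ (fun z : ℂ => (N : ℂ) * z) {z : ℂ | 0 < z.im} :=
    (differentiable_id.const_mul (N : ℂ)).differentiableOn
  have hcomp : DifferentiableOn ℂ ((E2 ∘ ofComplex) ∘ (fun z : ℂ => (N : ℂ) * z))
      {z : ℂ | 0 < z.im} := hE.comp hmul (HoloAux.mapsTo_mul hN)
  refine hcomp.congr (fun z hz => ?_)
  have hz' : 0 < z.im := hz
  simp only [Function.comp_apply]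
  unfold EN
  rw [ofComplex_apply_of_im_pos hz']

theorem estar_mdiff {N : ℕ} (hN : 0 < N) : MDiff (estar N) := by
  rw [UpperHalfPlane.mdifferentiable_iff]
  have h1 : DifferentiableOn ℂ (EN N ∘ ofComplex) {z : ℂ | 0 < z.im} :=
    UpperHalfPlane.mdifferentiable_iff.mp (EN_mdiff hN)
  have h2 : DifferentiableOn ℂ (E2 ∘ ofComplex) {z : ℂ | 0 < z.im} :=
    UpperHalfPlane.mdifferentiable_iff.mp E2_mdifferentiable
  have h3 : DifferentiableOn ℂ
      (fun z : ℂ => ((N : ℂ) * (EN N ∘ ofComplex) z - (E2 ∘ ofComplex) z) / ((N : ℂ) - 1))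
      {z : ℂ | 0 < z.im} := ((h1.const_mul (N : ℂ)).sub h2).div_const ((N : ℂ) - 1)
  exact h3

end Fermat.Agent.S16.E2b
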