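import Fermat.Agent.S16.E2b.Defs
import Fermat.Agent.S16.E2b.QExp
import Fermat.Agent.S16.E2b.Arith
import Fermat.Agent.S16.E2b.Holo
import Fermat.Agent.S16.E2b.SlashDvd
import Fermat.Agent.S16.E2b.Bdd

/-!
# S16 / E2b / Main (owner helper8): the Eisenstein series `E* ∈ M₂(Γ₀(N))`, `N` prime

`exists_Estar`: there is `E ∈ M₂(Γ₀(N))` with `a₀(E) = 1` and
`(N - 1) a_k(E) = 24 σ'_N(k)` for `k ≥ 1` (`σ'_N(k) = sigmaNat N k = Σ_{d ∣ k, N ∤ d} d`).
`E = estar N = (N E₂(N z) − E₂(z)) / (N − 1)`.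
-/

set_option autoImplicit false

open UpperHalfPlane ModularForm CongruenceSubgroup Complex Function EisensteinSeries
open scoped MatrixGroups ModularForm Real Manifold

namespace Fermat.Agent.S16.E2b

open Fermat.Agent.S23 (Gam)

/-- `estar N` as a modular form of weight `2` and level `Γ₀(N)` (`N` prime). -/
theorem exists_form {N : ℕ} (hN : N.Prime) :
    ∃ E : ModularForm (Gam N) 2, (E : ℍ → ℂ) = estar N := by
  haveI : NeZero N := ⟨hN.ne_zero⟩
  refine ⟨{ toFun := estar N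
            slash_action_eq' := ?_
            holo' := estar_mdiff hN.pos
            bdd_at_cusps' := ?_ }, rfl⟩
  · rintro g ⟨γ, hγ, rfl⟩
    have h1 : (N : ℤ) ∣ γ 1 0 := by
      have h2 := CongruenceSubgroup.Gamma0_mem.mp hγ
      exact (ZMod.intCast_zmod_eq_zero_iff_dvd _ N).mp h2
    exact estar_slash_of_dvd hN.pos γ h1
  · intro c hc
    have hc' : IsCusp c 𝒮ℒ := (Subgroup.IsArithmetic.isCusp_iff_isCusp_SL2Z (Gam N)).mp hc
    exact (OnePoint.isBoundedAt_iff_forall_SL2Z hc').mpr fun γ _ => estar_slash_bdd hN γ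

/-- The Eisenstein series `E*` of weight `2` and prime level `N`. -/
theorem exists_Estar {N : ℕ} (hN : N.Prime) :
    ∃ E : ModularForm (Gam N) 2, (qExpansion 1 E).coeff 0 = 1 ∧
      ∀ k : ℕ, 1 ≤ k → ((N : ℂ) - 1) * (qExpansion 1 E).coeff k = 24 * (sigmaNat N k : ℂ) := by
  haveI : NeZero N := ⟨hN.ne_zero⟩
  obtain ⟨E, hE⟩ := exists_form hN
  have h1 : HasExp 1 (E : ℍ → ℂ) (Bstar N hN.ne_zero) := by
    rw [hE]
    exact hasExp_estar hN.ne_zero
  have h2 : qExpansion 1 E = Bstar N hN.ne_zero := HasExp.eq_qExpansion E h1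
  refine ⟨E, ?_, fun k hk => ?_⟩
  · rw [h2]
    exact coeff_Bstar_zero hN.two_le hN.ne_zero
  · rw [h2]
    exact coeff_Bstar hN.two_le hN.ne_zero k hk

end Fermat.Agent.S16.E2b
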