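import Mathlib
import Fermat.Agent.S16.MF.Exp

/-!
# S16 / E2b (owner helper8; independent double of block E2): definitions

For `N ≥ 2`:  `EN N z = E₂(N z)` and
`estar N z = (N · E₂(N z) − E₂(z)) / (N − 1) = 1 + (24 / (N − 1)) Σ_{k ≥ 1} σ'_N(k) q^k`,
a modular form of weight `2` on `Γ₀(N)` for `N` prime (`E2b/Main.lean`).
`κ := 1 / (2 ζ(2))`, so that Mathlib's `EisensteinSeries.E2_slash_action` reads
`E2 ∣[2] γ = E2 - κ • D2 γ`, `D2 γ z = 2 π i (γ 1 0) / denom γ z`.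
-/

set_option autoImplicit false

open UpperHalfPlane ModularForm CongruenceSubgroup Complex Function EisensteinSeries
open scoped MatrixGroups ModularForm Real

namespace Fermat.Agent.S16.E2b

/-- `z ↦ E₂(N z)` (via `UpperHalfPlane.ofComplex`; meaningful for `N ≥ 1`). -/
noncomputable def EN (N : ℕ) : ℍ → ℂ := fun z => E2 (ofComplex ((N : ℂ) * (z : ℂ)))

/-- `(N E₂(N z) − E₂(z)) / (N − 1)`. -/
noncomputable def estar (N : ℕ) : ℍ → ℂ :=
  fun z => ((N : ℂ) * EN N z - E2 z) / ((N : ℂ) - 1)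

theorem EN_apply {N : ℕ} (z w : ℍ) (h : (w : ℂ) = (N : ℂ) * z) : EN N z = E2 w := by
  unfold EN
  have hw : 0 < ((N : ℂ) * (z : ℂ)).im := by
    rw [← h]
    exact w.im_pos
  rw [ofComplex_apply_of_im_pos hw]
  congr 1
  exact UpperHalfPlane.ext (by rw [h])

theorem estar_apply (N : ℕ) (z : ℍ) :
    estar N z = ((N : ℂ) * EN N z - E2 z) / ((N : ℂ) - 1) := rfl

/-- The formal `q`-expansion of `E₂`: `1 - 24 Σ σ₁(m) q^m`. -/
noncomputable def B2 : PowerSeries ℂ :=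
  PowerSeries.mk fun m : ℕ => if m = 0 then (1 : ℂ) else -24 * (ArithmeticFunction.sigma 1 m : ℂ)

/-- The formal `q`-expansion of `estar N`. -/
noncomputable def Bstar (N : ℕ) (hN : N ≠ 0) : PowerSeries ℂ :=
  ((N : ℂ) - 1)⁻¹ • ((N : ℂ) • PowerSeries.expand N hN B2 - B2)

end Fermat.Agent.S16.E2b
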